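import Fermat.Agent.RT.Lift59.Mazur.TraceNeZero
import Fermat.Agent.RT.Lift59.Scalar.Residual
import Fermat.Agent.Arith.Chebotarev.Main

/-!
# The rigidifying auxiliary prime

A prime `l ≡ 11 (mod 12)`, `l ≡ -1 (mod p)` outside a given finite set with `a_l ≢ 0 (mod p)`: the
level `Γ₀(l)` has no elliptic points and no congruent newform has `l` exactly dividing its level.
-/

set_option autoImplicit false

noncomputable section

open WeierstrassCurve

namespace Fermat.Agent.RT.Lift59.MazurQ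

open Fermat.Agent.Arith

variable {W : WeierstrassCurve ℤ} {p : ℕ} [Fact p.Prime]

/-- A prime whose Frobenius has a given image in the residual representation and in the roots
of unity of order `n`. -/
theorem exists_frobenius_residual (hΔ : W.Δ ≠ 0) (n : ℕ) [NeZero n] (g : GQ) (S : Finset ℕ) :
    ∃ l : ℕ, l.Prime ∧ l ∉ S ∧ ¬ l ∣ n ∧ W.IsGoodPrimeFor l ∧ l ≠ p ∧
      ∃ A : ValuationSubring QBar, A.LiesOverPrime l ∧ ∃ σ : GQ, A.IsFrobeniusAt σ l ∧
        (EC.Rep.residualRep W p hΔ).ρ σ = (EC.Rep.residualRep W p hΔ).ρ g ∧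
        (l : ZMod n) = (cyclotomicHom n g : ZMod n) := by
  classical
  obtain ⟨L₀, hL₀, h₀⟩ := (EC.Rep.residualRep W p hΔ).factorsThroughFiniteLevel
  obtain ⟨L₁, hL₁, h₁⟩ := cyclotomicHom_factors n
  let L : IntermediateField ℚ QBar := L₀ ⊔ L₁
  obtain ⟨l, hl, hlS, A, hA, σ, hσ, he⟩ := Arith.Chebotarev.exists_frobenius_eq
    ((EC.Rep.residualRep W p hΔ).ρ.prod (cyclotomicHom n)) L (fun τ hτ => Prod.ext
      (h₀ τ fun z hz => hτ z ((le_sup_left : L₀ ≤ L) hz))
      (h₁ τ fun z hz => hτ z ((le_sup_right : L₁ ≤ L) hz))) g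
    (S ∪ insert p (n.primeFactors ∪ W.Δ.natAbs.primeFactors))
  simp only [Finset.mem_union, Finset.mem_insert, not_or] at hlS
  obtain ⟨hlS, hlp, hln, hlΔ⟩ := hlS
  have hln' : ¬ l ∣ n := fun h => hln (Nat.mem_primeFactors.mpr ⟨hl, h, NeZero.ne n⟩)
  refine ⟨l, hl, hlS, hln', fun h => hlΔ (Nat.mem_primeFactors.mpr
    ⟨hl, Int.natCast_dvd.mp h, Int.natAbs_ne_zero.mpr hΔ⟩), hlp, A, hA, σ, hσ,
    congrArg Prod.fst he, ?_⟩
  rw [← cyclotomicHom_frobenius hA hl hσ hln']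
  exact congrArg Units.val (congrArg Prod.snd he)

/-- **The auxiliary prime.** -/
theorem exists_aux_prime (hp2 : p ≠ 2) (hΔ : W.Δ ≠ 0) (hW : W.IsSemistableModel)
    (hirr : W.ModRepIsIrreducible p) (S : Finset ℕ) :
    ∃ l : ℕ, l.Prime ∧ l ∉ S ∧ l % 4 = 3 ∧ l % 3 = 2 ∧ (l : ZMod p) = -1 ∧
      (W.apOfModel l : ZMod p) ≠ 0 := by
  classical
  have hp : p.Prime := Fact.out
  set n : ℕ := 12 * p with hn
  have : NeZero n := ⟨by have := hp.pos; omega⟩
  let χ := cyclotomicHom n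
  have hfrob : ∀ {l : ℕ}, l.Prime → ¬ l ∣ n → ∀ {A : ValuationSubring QBar},
      A.LiesOverPrime l → ∀ {σ : GQ}, A.IsFrobeniusAt σ l →
        (χ σ : ZMod n) = (l : ZMod n) := fun hl hln _ hA _ hσ =>
    cyclotomicHom_frobenius hA hl hσ hln
  -- an element with character `-1`
  obtain ⟨v, hvn, hv, hva⟩ := Nat.forall_exists_prime_gt_and_eq_mod (q := n)
    (a := (-1 : ZMod n)) isUnit_one.neg n
  obtain ⟨B, hB⟩ := exists_liesOverPrime hv
  obtain ⟨c, hc⟩ := exists_isFrobeniusAt hB hv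
  have hχc : (χ c : ZMod n) = -1 := by
    rw [hfrob hv (fun h => absurd (Nat.le_of_dvd (NeZero.pos n) h) (not_le.mpr hvn)) hB hc, hva]
  -- the representation over an algebraically closed field
  let k := AlgebraicClosure (ZMod p)
  let bb : Module.Basis (Fin 2) k (wRho W p hΔ k).V :=
    Module.finBasisOfFinrankEq _ _ (wRho W p hΔ k).finrank_eq
  have hr := twHyp_wMat bb hp2 hW hirr fun f hf => IsAlgClosed.exists_root _ (by
    rw [Polynomial.degree_map]
    intro h0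
    rw [Polynomial.degree_eq_natDegree (fun h => by simp [h] at hf), hf] at h0
    exact absurd h0 (by norm_num))
  obtain ⟨g, hgχ, hgtr⟩ := exists_trace_ne_zero hr χ c
  -- Chebotarev
  obtain ⟨l, hl, hlS, hln', hgood, hlp, A, hA, σ, hσ, hρ, hln⟩ :=
    exists_frobenius_residual (p := p) hΔ n g S
  have h1 : ((l + 1 : ℕ) : ZMod n) = 0 := by
    rw [Nat.cast_add, Nat.cast_one, hln]
    show (χ g : ZMod n) + 1 = 0
    rw [hgχ, hχc, neg_add_cancel]
  rw [ZMod.natCast_eq_zero_iff] at h1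
  have h4 : 4 ∣ l + 1 := dvd_trans ⟨3 * p, by rw [hn]; ring⟩ h1
  have h3 : 3 ∣ l + 1 := dvd_trans ⟨4 * p, by rw [hn]; ring⟩ h1
  refine ⟨l, hl, hlS, by omega, by omega, ?_, fun h => hgtr ?_⟩
  · have hdvd : p ∣ l + 1 := dvd_trans (dvd_mul_left p 12) h1
    rw [← ZMod.natCast_eq_zero_iff, Nat.cast_add, Nat.cast_one] at hdvd
    exact eq_neg_of_add_eq_zero_left hdvd
  · have hch := charpoly_wRho_frobenius (k := k) (hΔ := hΔ) hl hgood hlp hA hσ
    rw [EC.FrobTrace.charpoly_of_finrank_eq_two (wRho W p hΔ k).finrank_eq] at hch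
    have h2 := congrArg (fun f => Polynomial.coeff f 1) hch
    have e : (W.apOfModel l : k) = 0 := by rw [← map_intCast (algebraMap (ZMod p) k), h, map_zero]
    have hw : wMat bb σ = wMat bb g :=
      congrArg (fun T : Module.End (ZMod p) (EC.Rep.residualRep W p hΔ).V =>
        LinearMap.toMatrixAlgEquiv bb (T.baseChange k)) hρ
    rw [← hw, trace_wMat_apply]
    simpa [Polynomial.coeff_X_pow, wAbar, e] using h2

end Fermat.Agent.RT.Lift59.MazurQ

end
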