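import Fermat.Agent.RT.Assembly.Forms
import Fermat.Agent.RT.Lift59.Scalar.Residual
import Fermat.Agent.RT.AtP.Eigen
import Fermat.Agent.GaloisReps.Unconditional

/-!
# Modular forms congruent to the residual representation of a semistable model
-/

set_option autoImplicit false

noncomputable section

open WeierstrassCurve WeierstrassCurve.Affine Polynomial
open CongruenceSubgroup ModularFormClass
open scoped WeierstrassCurve.Affine

namespace Fermat.Agent.RT.Lift59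

local notation "Q̄" => AlgebraicClosure ℚ
local notation "GQ" => AlgebraicClosure ℚ ≃ₐ[ℚ] AlgebraicClosure ℚ

variable {W : WeierstrassCurve ℤ} {p : ℕ} [Fact p.Prime] {k : Type} [Field k] [Algebra (ZMod p) k]

/-- The representation attached to a congruent form, against that of the model. -/
theorem charpoly_attached_eq_wRho (hΔ : W.Δ ≠ 0) {M : ℕ} (hM : M ≠ 0)
    {g : CuspForm (Gamma0 M) 2} (hg : g.IsNormalizedEigenform)
    (φ : integralClosure ℤ ℂ →+* AlgebraicClosure k) (T : Finset ℕ)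
    (hout : ∀ ℓ : ℕ, ℓ.Prime → ℓ ∉ T → ∀ a : integralClosure ℤ ℂ, (a : ℂ) = qCoeff g ℓ →
      φ a = algebraMap k _ (wAbar W k ℓ)) :
    ∃ ρ : ResidualGaloisRep (AlgebraicClosure k), ρ.IsAttachedTo g φ ∧
      ∀ σ : GQ, LinearMap.charpoly (ρ.ρ σ) =
        (LinearMap.charpoly ((wRho W p hΔ k).ρ σ)).map (algebraMap k (AlgebraicClosure k)) := by
  classical
  have : NeZero M := ⟨hM⟩
  have hpk : CharP k p := charP_of_injective_algebraMap (algebraMap (ZMod p) k).injective p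
  have : CharP (AlgebraicClosure k) p :=
    charP_of_injective_algebraMap (algebraMap k (AlgebraicClosure k)).injective p
  obtain ⟨ρ, hatt, -⟩ := GaloisReps.exists_residual_eigenform GaloisReps.models hg Fact.out φ
  refine ⟨ρ, hatt, fun σ => ?_⟩
  refine (Assembly.charpoly_eq_of_frobenius ρ ((wRho W p hΔ k).baseChange (AlgebraicClosure k))
    (T ∪ insert p (M.primeFactors ∪ W.Δ.natAbs.primeFactors))
    (fun ℓ hℓ hℓT A hA τ hτ => ?_) σ).trans (LinearMap.charpoly_baseChange _ _)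
  simp only [Finset.mem_union, Finset.mem_insert, not_or] at hℓT
  have hℓM : ¬ ℓ ∣ M := fun h => hℓT.2.2.1 (Nat.mem_primeFactors.mpr ⟨hℓ, h, hM⟩)
  have hgood : W.IsGoodPrimeFor ℓ := fun h => hℓT.2.2.2 (Nat.mem_primeFactors.mpr
    ⟨hℓ, Int.natCast_dvd.mp h, Int.natAbs_ne_zero.mpr hΔ⟩)
  have hℓ0 : (ℓ : AlgebraicClosure k) ≠ 0 := fun h => hℓT.2.1
    ((Nat.prime_dvd_prime_iff_eq Fact.out hℓ).mp ((CharP.cast_eq_zero_iff _ p ℓ).mp h)).symm
  obtain ⟨a, ha, hc⟩ := hatt ℓ hℓ hℓM hℓ0 A hA τ hτ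
  rw [hc, hout ℓ hℓ hℓT.1 a ha]
  show _ = LinearMap.charpoly (((wRho W p hΔ k).ρ τ).baseChange (AlgebraicClosure k))
  rw [LinearMap.charpoly_baseChange, charpoly_wRho_frobenius hℓ hgood hℓT.2.1 hA hτ]
  simp

/-- A congruence outside a finite set extends to the good primes away from the level and `p`. -/
theorem congr_of_congr_outside_wAbar (hΔ : W.Δ ≠ 0) {M : ℕ} (hM : M ≠ 0)
    {g : CuspForm (Gamma0 M) 2} (hg : g.IsNormalizedEigenform)
    (φ : integralClosure ℤ ℂ →+* AlgebraicClosure k) (T : Finset ℕ)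
    (hout : ∀ ℓ : ℕ, ℓ.Prime → ℓ ∉ T → ∀ a : integralClosure ℤ ℂ, (a : ℂ) = qCoeff g ℓ →
      φ a = algebraMap k _ (wAbar W k ℓ))
    {ℓ : ℕ} (hℓ : ℓ.Prime) (hgood : W.IsGoodPrimeFor ℓ) (hℓM : ¬ ℓ ∣ M)
    (hℓp : ℓ ≠ p) {a : integralClosure ℤ ℂ} (ha : (a : ℂ) = qCoeff g ℓ) :
    φ a = algebraMap k _ (wAbar W k ℓ) := by
  have : NeZero M := ⟨hM⟩
  have hpk : CharP k p := charP_of_injective_algebraMap (algebraMap (ZMod p) k).injective p
  have : CharP (AlgebraicClosure k) p :=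
    charP_of_injective_algebraMap (algebraMap k (AlgebraicClosure k)).injective p
  have hℓ0 : (ℓ : AlgebraicClosure k) ≠ 0 := fun h => hℓp
    ((Nat.prime_dvd_prime_iff_eq Fact.out hℓ).mp ((CharP.cast_eq_zero_iff _ p ℓ).mp h)).symm
  obtain ⟨ρ, hatt, hρ⟩ := charpoly_attached_eq_wRho (p := p) hΔ hM hg φ T hout
  obtain ⟨A, hA⟩ := Arith.exists_liesOverPrime hℓ
  obtain ⟨σ, hσ⟩ := Arith.exists_isFrobeniusAt hA hℓ
  obtain ⟨a', ha', hc⟩ := hatt ℓ hℓ hℓM hℓ0 A hA σ hσ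
  rw [hρ σ, charpoly_wRho_frobenius hℓ hgood hℓp hA hσ] at hc
  have h1 := congrArg (fun f => Polynomial.coeff f 1) hc
  rw [show a = a' from Subtype.ext (ha.trans ha'.symm)]
  simpa [coeff_X_pow] using h1.symm

/-- A congruent form makes the model residually modular of its level. -/
theorem isResiduallyModularOfLevel_of_congruent (hΔ : W.Δ ≠ 0) {S : Finset ℕ} {M : ℕ}
    (hM : M ≠ 0) {g : CuspForm (Gamma0 M) 2} (h : IsCongruentForm S (wAbar W k) g) :
    W.IsResiduallyModularOfLevel p M := by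
  have : NeZero M := ⟨hM⟩
  obtain ⟨hg, φ, hφ⟩ := h
  have hp : p.Prime := Fact.out
  have hpk : CharP k p := charP_of_injective_algebraMap (algebraMap (ZMod p) k).injective p
  have : CharP (AlgebraicClosure k) p :=
    charP_of_injective_algebraMap (algebraMap k (AlgebraicClosure k)).injective p
  have hmax : (RingHom.ker φ).IsMaximal := by
    have hP : (RingHom.ker φ).IsPrime := RingHom.ker_isPrime φ
    refine Ideal.isMaximal_of_isIntegral_of_isMaximal_comap (R := ℤ) _ ?_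
    have hle : Ideal.span {(p : ℤ)} ≤ (RingHom.ker φ).comap (algebraMap ℤ _) := by
      rw [Ideal.span_le, Set.singleton_subset_iff, SetLike.mem_coe, Ideal.mem_comap,
        RingHom.mem_ker, map_natCast, map_natCast]
      exact CharP.cast_eq_zero _ _
    have hmax' : (Ideal.span {(p : ℤ)}).IsMaximal :=
      PrincipalIdealRing.isMaximal_of_irreducible (Nat.prime_iff_prime_int.mp hp).irreducible
    rw [← hmax'.eq_of_le (Ideal.IsPrime.comap _).ne_top hle]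
    exact hmax'
  refine ⟨g, RingHom.ker φ, hg, hmax, ?_, fun ℓ hℓ hgood hℓM hℓp => ?_⟩
  · rw [RingHom.mem_ker, map_natCast]
    exact CharP.cast_eq_zero _ _
  · obtain ⟨θ, hθ⟩ := GaloisReps.exists_eigenform_character hg
    refine ⟨θ (HeckeDuality.heckeOp M 2 ℓ hℓ), hθ ℓ hℓ, ?_⟩
    rw [RingHom.mem_ker, map_sub, sub_eq_zero,
      congr_of_congr_outside_wAbar (p := p) hΔ hM hg φ S hφ hℓ hgood hℓM hℓp (hθ ℓ hℓ),
      map_intCast]
    exact map_intCast (algebraMap k _) _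

/-- A form congruent to `a` outside a finite set gives residual modularity. -/
theorem residuallyModular_of_congr (hΔ : W.Δ ≠ 0) {M : ℕ} [NeZero M] {S : Finset ℕ}
    {G : ℕ → Prop} (hG : ∀ l, l ∉ S → G l) {a : ℕ → ℕ}
    (ha : ∀ l, (a l : ZMod p) = (W.apOfModel l : ZMod p))
    (h : ∃ (g : CuspForm (Gamma0 M) 2) (_ : g.IsNormalizedEigenform)
      (𝔪 : Ideal (integralClosure ℤ ℂ)), 𝔪.IsMaximal ∧ ((p : ℕ) : integralClosure ℤ ℂ) ∈ 𝔪 ∧
      ∀ l, l.Prime → G l → ∃ c : integralClosure ℤ ℂ,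
        (c : ℂ) = qCoeff g l ∧ c - ((a l : ℤ) : integralClosure ℤ ℂ) ∈ 𝔪) :
    W.IsResiduallyModularOfLevel p M := by
  obtain ⟨g, hg, 𝔪, h𝔪, hp𝔪, hcong⟩ := h
  obtain ⟨φ, hφ⟩ := AtP.exists_residueHom (p := p) (AlgebraicClosure (ZMod p)) 𝔪 hp𝔪
  refine isResiduallyModularOfLevel_of_congruent (k := ZMod p) hΔ (S := S) (NeZero.ne M) (g := g)
    ⟨hg, φ, fun l hl hlS b hb => ?_⟩
  obtain ⟨c, hc, hcm⟩ := hcong l hl (hG l hlS)
  rw [← hφ, RingHom.mem_ker, map_sub, sub_eq_zero, map_intCast, Int.cast_natCast] at hcm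
  rw [show b = c from Subtype.ext (hb.trans hc.symm), hcm, wAbar,
    ← map_natCast (algebraMap (ZMod p) (AlgebraicClosure (ZMod p))), ha]

/-- Residual modularity gives a congruent form. -/
theorem isCongruentLevel_of_isResiduallyModularOfLevel {S : Finset ℕ} {N : ℕ}
    (hS : ∀ ℓ : ℕ, ℓ.Prime → (ℓ = p ∨ ℓ ∣ N ∨ (ℓ : ℤ) ∣ W.Δ) → ℓ ∈ S)
    (hmod : W.IsResiduallyModularOfLevel p N) : IsCongruentLevel S (wAbar W k) N := by
  obtain ⟨g, 𝔪, hg, h𝔪, hp𝔪, hcong⟩ := hmod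
  obtain ⟨φ, hφ⟩ := AtP.exists_residueHom (p := p) (AlgebraicClosure k) 𝔪 hp𝔪
  refine ⟨g, hg, φ, fun ℓ hℓ hℓS a ha => ?_⟩
  obtain ⟨c, hc, hcm⟩ := hcong ℓ hℓ (fun h => hℓS (hS ℓ hℓ (Or.inr (Or.inr h))))
    (fun h => hℓS (hS ℓ hℓ (Or.inr (Or.inl h)))) (fun h => hℓS (hS ℓ hℓ (Or.inl h)))
  rw [← hφ, RingHom.mem_ker, map_sub, sub_eq_zero, map_intCast] at hcm
  rw [show a = c from Subtype.ext (ha.trans hc.symm), hcm, wAbar, map_intCast]

/-- A newform below a congruent form. -/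
theorem exists_congruent_newform_wAbar {S : Finset ℕ} {M : ℕ} (hM : M ≠ 0)
    (h : IsCongruentLevel S (wAbar W k) M) :
    ∃ M' : ℕ, M' ∣ M ∧ ∃ g : CuspForm (Gamma0 M') 2, g.IsNewform ∧
      IsCongruentForm (S ∪ M.primeFactors) (wAbar W k) g := by
  obtain ⟨f, hf, φ, hφ⟩ := h
  have : NeZero M := ⟨hM⟩
  obtain ⟨M', g, hM', hg, hgf⟩ := Newforms.exists_newform hf
  refine ⟨M', hM', g, hg, hg.1, φ, fun ℓ hℓ hℓS a ha => ?_⟩
  simp only [Finset.mem_union, not_or] at hℓS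
  exact hφ ℓ hℓ hℓS.1 a (ha.trans (hgf ℓ hℓ fun hd =>
    hℓS.2 (Nat.mem_primeFactors.mpr ⟨hℓ, hd, hM⟩)))

end Fermat.Agent.RT.Lift59
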