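import Fermat.Agent.RT.MazurQ.Rigid
import Fermat.Agent.RT.Lift59.Mazur.AuxPrime
import Fermat.Agent.RT.Lift59.Mazur.Special
import Fermat.Agent.RT.Lift59.Mazur.Forms
import Fermat.Agent.RT.Lift59.Matrices
import Fermat.Agent.RT.Assembly.Forms
import Fermat.Agent.GaloisReps.Unconditional
import Fermat.Agent.Newforms.LevelRaiseEigen

/-!
# The principle of Mazur for a semistable model at an odd prime `p`

An auxiliary prime makes the level rigid and then leaves it, as no congruent newform is special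
at a prime `l ∥ N` with `a_l² ≢ (l + 1)²`, whatever the reduction at the other primes.
-/

set_option autoImplicit false

noncomputable section

open WeierstrassCurve WeierstrassCurve.Affine Polynomial
open CongruenceSubgroup ModularFormClass
open scoped WeierstrassCurve.Affine

namespace Fermat.Agent.RT.Lift59.MazurQ

open Fermat.Agent.Arith Fermat.Agent.EC.Rep Fermat.Agent.RT.MazurQ Fermat.Agent.RT.AtP Module

variable {W : WeierstrassCurve ℤ} {p : ℕ} [Fact p.Prime] {hΔ : W.Δ ≠ 0}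

theorem trace_residualRep_frobenius {l : ℕ} (hl : l.Prime) (hgood : W.IsGoodPrimeFor l)
    (hne : l ≠ p) {A : ValuationSubring QBar} (hA : A.LiesOverPrime l) {σ : GQ}
    (hσ : A.IsFrobeniusAt σ l) :
    LinearMap.trace (ZMod p) _ ((residualRep W p hΔ).ρ σ) = (W.apOfModel l : ZMod p) := by
  have h := charpoly_residualRep_frobenius hΔ hl hgood hne hA hσ
  rw [EC.FrobTrace.charpoly_of_finrank_eq_two (residualRep W p hΔ).finrank_eq] at h
  have h1 := congrArg (fun f => Polynomial.coeff f 1) h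
  simpa [coeff_X_pow] using h1

/-- The prime `l` leaves the level `l M` when `a_l² ≢ (l + 1)²`. -/
theorem residuallyModular_of_mul (hΔ : W.Δ ≠ 0)
    {M l : ℕ} (hl : l.Prime) (hM : M ≠ 0) (hlM : ¬ l ∣ M) (hgood : W.IsGoodPrimeFor l)
    (hlp : l ≠ p) (hne : (W.apOfModel l : ZMod p) ^ 2 ≠ ((l : ZMod p) + 1) ^ 2)
    (hmod : W.IsResiduallyModularOfLevel p (l * M)) : W.IsResiduallyModularOfLevel p M := by
  classical
  have hp : p.Prime := Fact.out
  have hN : l * M ≠ 0 := mul_ne_zero hl.ne_zero hM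
  have : NeZero (l * M) := ⟨hN⟩
  have : NeZero M := ⟨hM⟩
  obtain ⟨g, 𝔫, hg, h𝔫, hp𝔫, hcong⟩ := hmod
  set S : Finset ℕ := insert p ((l * M).primeFactors ∪ W.Δ.natAbs.primeFactors) with hS
  have hSout : ∀ q : ℕ, q.Prime → q ∉ S → q ≠ p ∧ ¬ q ∣ l * M ∧ W.IsGoodPrimeFor q := by
    intro q hq h
    simp only [hS, Finset.mem_insert, Finset.mem_union, not_or] at h
    exact ⟨h.1, fun hd => h.2.1 (Nat.mem_primeFactors.mpr ⟨hq, hd, hN⟩),
      fun hd => h.2.2 (Nat.mem_primeFactors.mpr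
        ⟨hq, Int.natCast_dvd.mp hd, Int.natAbs_ne_zero.mpr hΔ⟩)⟩
  -- the congruence as a homomorphism
  obtain ⟨φ, hker⟩ := exists_residueHom (p := p) (AlgebraicClosure (ZMod p)) 𝔫 hp𝔫
  have hφ : ∀ q, q.Prime → q ∉ S → ∀ b : integralClosure ℤ ℂ, (b : ℂ) = qCoeff g q →
      φ b = (W.apOfModel q : AlgebraicClosure (ZMod p)) := fun q hq hqS b hb => by
    obtain ⟨hqp, hqN, hqgood⟩ := hSout q hq hqS
    obtain ⟨c, hc, hcm⟩ := hcong q hq hqgood hqN hqp
    rw [← hker, RingHom.mem_ker, map_sub, sub_eq_zero, map_intCast] at hcm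
    rw [show b = c from Subtype.ext (hb.trans hc.symm), hcm]
  -- the newform below does not see `l`
  obtain ⟨M₁, g₁, hM₁, hg₁, hgg₁⟩ := Newforms.exists_newform hg
  have : NeZero M₁ := ⟨fun h => hN (Nat.eq_zero_of_zero_dvd (h ▸ hM₁))⟩
  have hcong₁ : IsCongruentForm S (fun q => (W.apOfModel q : ZMod p)) g₁ :=
    ⟨hg₁.1, φ, fun q hq hqS b hb => by
      rw [hφ q hq hqS b (hb.trans (hgg₁ q hq fun h => (hSout q hq hqS).2.1 h)), map_intCast]⟩
  have hlM₁ : ¬ l ∣ M₁ := fun hd => by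
    obtain ⟨A, hA⟩ := Arith.exists_liesOverPrime hl
    obtain ⟨σ, hσ⟩ := Arith.exists_isFrobeniusAt hA hl
    have h := trace_sq_of_special (residualRep W p hΔ) (fun q hq hqS B hB τ hτ =>
      charpoly_residualRep_frobenius hΔ hq (hSout q hq hqS).2.2 (hSout q hq hqS).1 hB hτ)
      hg₁ hcong₁ hl hlp hd
      (fun h2 => hlM (Nat.dvd_of_mul_dvd_mul_left hl.pos (by rw [← sq]; exact h2.trans hM₁))) hA hσ
    exact hne (by rwa [trace_residualRep_frobenius hl hgood hlp hA hσ] at h)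
  have hM₁M : M₁ ∣ M :=
    Nat.Coprime.dvd_of_dvd_mul_left (hl.coprime_iff_not_dvd.mpr hlM₁).symm hM₁
  obtain ⟨g₂, hg₂, hg₂g₁⟩ := Newforms.exists_eigenform_of_dvd (N := M) hM₁M hg₁.1
  have := RingHom.ker_isPrime φ
  refine ⟨g₂, RingHom.ker φ, hg₂, hker ▸ h𝔫, hker ▸ hp𝔫, fun q hq hqgood hqM hqp => ?_⟩
  obtain ⟨θ, hθ⟩ := GaloisReps.exists_eigenform_character hg₂
  refine ⟨θ (HeckeDuality.heckeOp M 2 q hq), hθ q hq, ?_⟩
  rw [RingHom.mem_ker, map_sub, sub_eq_zero, map_intCast,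
    ← map_intCast (algebraMap (ZMod p) (AlgebraicClosure (ZMod p)))]
  refine congr_of_congr_outside_wAbar (k := ZMod p) hΔ hM hg₂ φ S (fun w hw hwS b hb => ?_) hq hqgood hqM hqp
    (hθ q hq)
  have hwN := (hSout w hw hwS).2.1
  rw [wAbar, map_intCast]
  exact hφ w hw hwS b (hb.trans
    ((hg₂g₁ w hw (Or.inr fun h => hwN (h.trans (dvd_mul_left M l)))).trans (hgg₁ w hw hwN)))

/-- **The principle of Mazur for a semistable model.** -/
theorem mazurInput : MazurInput := by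
  classical
  intro W p M q hset hseed hq hqp hqM hq2M hsmall hns
  have hpf : Fact p.Prime := ⟨hset.hp.1⟩
  have hqf : Fact q.Prime := ⟨hq⟩
  have hp : p.Prime := Fact.out
  have hp2 : p ≠ 2 := hset.hp.2
  obtain ⟨M₀, rfl⟩ := hqM
  have hqM₀ : ¬ q ∣ M₀ := fun h => hq2M (by rw [sq]; exact mul_dvd_mul_left q h)
  have hM₀ : M₀ ≠ 0 := right_ne_zero_of_mul hseed.pos.ne'
  set S : Finset ℕ := insert p ((q * M₀).primeFactors ∪ W.Δ.natAbs.primeFactors) with hS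
  have hSout : ∀ l : ℕ, l.Prime → l ∉ S → l ≠ p ∧ ¬ l ∣ q * M₀ ∧ W.IsGoodPrimeFor l := by
    intro l hl h
    simp only [hS, Finset.mem_insert, Finset.mem_union, not_or] at h
    exact ⟨h.1, fun hd => h.2.1 (Nat.mem_primeFactors.mpr ⟨hl, hd, hseed.pos.ne'⟩),
      fun hd => h.2.2 (Nat.mem_primeFactors.mpr
        ⟨hl, Int.natCast_dvd.mp hd, Int.natAbs_ne_zero.mpr hset.hΔ⟩)⟩
  obtain ⟨l₁, hl₁, hl₁S, h4, h3, hl₁p, hal₁⟩ := exists_aux_prime hp2 hset.hΔ hset.hW hset.hirr S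
  obtain ⟨hl₁ne, hl₁N, hl₁good⟩ := hSout l₁ hl₁ hl₁S
  set M' := l₁ * M₀ with hM'
  have : NeZero M' := ⟨mul_ne_zero hl₁.ne_zero hM₀⟩
  have : NeZero (q * M') := ⟨mul_ne_zero hq.ne_zero (NeZero.ne M')⟩
  have hqM' : ¬ q ∣ M' := fun h => (hq.dvd_mul.mp h).elim
    (fun h' => hl₁N (((Nat.prime_dvd_prime_iff_eq hq hl₁).mp h') ▸ dvd_mul_right q M₀)) hqM₀
  set S' : Finset ℕ := insert l₁ S with hS'
  have hS'out : ∀ l : ℕ, l.Prime → l ∉ S' → l ≠ p ∧ ¬ l ∣ q * M' ∧ W.IsGoodPrimeFor l := by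
    intro l hl h
    rw [hS', Finset.mem_insert, not_or] at h
    obtain ⟨h1, h2, h3'⟩ := hSout l hl h.2
    refine ⟨h1, fun hd => ?_, h3'⟩
    rw [hM', mul_left_comm] at hd
    exact (hl.dvd_mul.mp hd).elim (fun hd' => h.1 ((Nat.prime_dvd_prime_iff_eq hl hl₁).mp hd')) h2
  set G : ℕ → Prop := fun l => l ∉ S' with hG
  set a : ℕ → ℕ := fun l => (W.apOfModel l : ZMod p).val with ha
  have hacast : ∀ l, (a l : ZMod p) = (W.apOfModel l : ZMod p) := fun l => by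
    rw [ha]; exact ZMod.natCast_zmod_val _
  have hGN : ∀ l, l.Prime → G l → ¬ l ∣ q * M' * p := fun l hl hlS h =>
    (hl.dvd_mul.mp h).elim (hS'out l hl hlS).2.1
      fun h' => (hS'out l hl hlS).1 ((Nat.prime_dvd_prime_iff_eq hl hp).mp h')
  -- the form of level `q M'`
  have hform : MazurP.HasCong (q * M') p G a := by
    obtain ⟨f, 𝔪, hf, h𝔪, hp𝔪, hcong⟩ := hseed.res
    obtain ⟨f', hf', hff'⟩ := Newforms.exists_eigenform_of_dvd (N := q * M')
      (show q * M₀ ∣ q * M' from mul_dvd_mul_left q (dvd_mul_left M₀ l₁)) hf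
    refine ⟨f', hf', 𝔪, h𝔪, hp𝔪, fun l hl hlS => ?_⟩
    obtain ⟨hlp, hlN, hlgood⟩ := hS'out l hl hlS
    have hlN₀ : ¬ l ∣ q * M₀ := fun h => hlN (h.trans (mul_dvd_mul_left q (dvd_mul_left M₀ l₁)))
    obtain ⟨c, hc, hcm⟩ := hcong l hl hlgood hlN₀ hlp
    exact ⟨c, hc.trans (hff' l hl (Or.inr hlN)).symm,
      sub_intCast_mem hp𝔪 (by exact_mod_cast hacast l) hcm⟩
  obtain ⟨l₀, hl₀, hl₀S, -, -, hne⟩ := exists_apOfModel_ne hp2 hset.hirr hset.hΔ S'
  have hex : ∃ l, l.Prime ∧ G l ∧ ((l + 1 : ℕ) : ZMod p) ≠ (a l : ZMod p) :=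
    ⟨l₀, hl₀, hl₀S, fun h => hne (by rw [← hacast, ← h]; push_cast; ring)⟩
  -- a form of level `M'`
  have hM'c : MazurP.HasCong M' p G a := by
    by_contra hcon
    obtain ⟨g, hg, 𝔪, h𝔪, hp𝔪, hcong⟩ := hform
    have := h𝔪.isPrime
    obtain ⟨x₀, hx₀, hpx₀, hx₀e⟩ := exists_eigenclass hg 𝔪 hp𝔪 G a hcong
    obtain ⟨hq1, hsc⟩ := scalar_of_frobNeg hqM' (Ne.symm hqp) hGN S' (fun l _ h => h)
      (AtP.matP W p hset.hΔ) (AtP.matP_finiteLevel hset.hΔ)
      (AtP.matP_span hset.hΔ hp2 hset.hirr)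
      (fun l hl hlS A hA σ hσ => by
        obtain ⟨h1, h2⟩ :=
          AtP.matP_frobenius hset.hΔ hl (hS'out l hl hlS).2.2 (hS'out l hl hlS).1 hA hσ
        exact ⟨by rw [h1, hacast], h2⟩)
      (AtP.matP_det hset.hΔ) (fun A hA τ hτ => by
        have h1 := (wRho_eq_one_iff (hΔ := hset.hΔ) (k := ZMod p) τ).mp
          (isUnramifiedAt_wRho_of_smallAt hp2 hset.hW hq hqp hsmall A hA τ hτ)
        rw [AtP.matP_apply, h1, map_one])
      ⟨hpx₀, hx₀e⟩ hx₀ (frobNeg_of_rigid hqM' (Ne.symm hqp) hl₁ h4 h3 (dvd_mul_right l₁ M₀)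
        (fun l hl hlS => (hS'out l hl hlS).2.1) hex
        (fun y hy hye => by_contra fun hy0 => hcon (hasCong_of_eigenclass hy0 hy hye)))
    refine hns ⟨hq1, fun A hA σ hσ => ?_⟩
    obtain ⟨c, hc⟩ := hsc A hA σ hσ
    have hρ : (residualRep W p hset.hΔ).ρ σ = c • 1 :=
      (LinearMap.toMatrixAlgEquiv (AtP.matBasis W p hset.hΔ)).injective
        (by rw [← AtP.matP_apply, hc, map_smul, map_one])
    refine ⟨(c.val : ℤ), fun x hx => ?_⟩
    set v : (residualRep W p hset.hΔ).V := ⟨x, (Submodule.mem_torsionBy_iff _ _).mpr hx⟩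
    have e : (residualRep W p hset.hΔ).ρ σ v = c.val • v := by
      rw [hρ, ← Nat.cast_smul_eq_nsmul (ZMod p), ZMod.natCast_zmod_val]
      rfl
    rw [natCast_zsmul]
    exact congrArg Subtype.val e
  -- the auxiliary prime leaves the level
  rw [Nat.mul_div_cancel_left M₀ hq.pos]
  refine residuallyModular_of_mul hset.hΔ hl₁ hM₀ (fun h => hl₁N (h.trans (dvd_mul_left M₀ q)))
    hl₁good hl₁ne ?_ (residuallyModular_of_congr hset.hΔ (S := S') (fun _ h => h) hacast hM'c)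
  rw [hl₁p, neg_add_cancel, zero_pow two_ne_zero]
  exact pow_ne_zero _ hal₁

end Fermat.Agent.RT.Lift59.MazurQ

end
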