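import Fermat.Agent.CFT.TWPrimes.Irred

/-!
# Traces in a coset of a subgroup with commutative quotient

A representation with no stable line over subgroups of index at most two has, in every coset of
the kernel of a homomorphism to a commutative group, an element of nonzero trace.
-/

set_option autoImplicit false

noncomputable section

namespace Fermat.Agent.RT.Lift59.MazurQ

open Matrix Fermat.Agent.CFT.TWPrimes

variable {G : Type*} [Group G] {k : Type*} [Field k] {r : G →* Matrix (Fin 2) (Fin 2) k}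

/-- The traceless matrices orthogonal to two independent ones form a line. -/
theorem exists_eq_smul_of_trace_mul_eq_zero (h2 : (2 : k) ≠ 0)
    {C X Y₀ Y₁ : Matrix (Fin 2) (Fin 2) k} (hC0 : C ≠ 0) (hC : C.trace = 0) (hX : X.trace = 0)
    (hY₀ : Y₀.trace = 0) (hY₁ : Y₁.trace = 0) (hY00 : Y₀ ≠ 0) (hind : ∀ c : k, Y₁ ≠ c • Y₀)
    (e0 : (Y₀ * C).trace = 0) (e1 : (Y₁ * C).trace = 0) (f0 : (Y₀ * X).trace = 0)
    (f1 : (Y₁ * X).trace = 0) : ∃ c : k, X = c • C := by
  set W := Y₀ * Y₁ - Y₁ * Y₀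
  have hW : W.trace = 0 := by rw [trace_sub, trace_mul_comm Y₀, sub_self]
  have hW0 : W ≠ 0 := fun h => by
    obtain ⟨c, hc⟩ := exists_smul_of_commute h2 hY₁ hY₀ hY00 (sub_eq_zero.1 h).symm
    exact hind c hc
  have hcomm : ∀ A B Z : Matrix (Fin 2) (Fin 2) k, A * Z = -(Z * A) → B * Z = -(Z * B) →
      A * B * Z = Z * (A * B) := fun A B Z hA hB => by
    rw [mul_assoc, hB, mul_neg, ← mul_assoc, hA, neg_mul, neg_neg, mul_assoc]
  have key : ∀ Z, Z.trace = 0 → (Y₀ * Z).trace = 0 → (Y₁ * Z).trace = 0 → ∃ c : k, Z = c • W :=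
    fun Z hZ g0 g1 => by
      have h0 := anticomm_of_orth hY₀ hZ g0
      have h1 := anticomm_of_orth hY₁ hZ g1
      exact exists_smul_of_commute h2 hZ hW hW0 (by
        rw [mul_sub, sub_mul, hcomm _ _ _ h0 h1, hcomm _ _ _ h1 h0])
  obtain ⟨a, rfl⟩ := key C hC e0 e1
  obtain ⟨b, rfl⟩ := key X hX f0 f1
  exact ⟨b / a, by rw [smul_smul, div_mul_cancel₀ _ (smul_ne_zero_iff.1 hC0).1]⟩

/-- **An element of nonzero trace in every coset.** -/
theorem exists_trace_ne_zero {A : Type*} [CommGroup A] (hr : TWHyp r) (χ : G →* A) (c : G) :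
    ∃ g, χ g = χ c ∧ (r g).trace ≠ 0 := by
  by_contra hcon
  simp only [not_exists, not_and, not_not] at hcon
  have h2 := hr.two
  set C := r c with hCdef
  have hCD : ∀ d ∈ χ.ker, (C * r d).trace = 0 := fun d hd => by
    rw [hCdef, ← map_mul]
    exact hcon _ (by rw [map_mul, MonoidHom.mem_ker.mp hd, mul_one])
  have hC : C.trace = 0 := by simpa using hCD 1 (one_mem _)
  have hC0 : C ≠ 0 := fun h => det_ne_zero (r := r) c (by rw [← hCdef, h, det_zero])
  have hconjD : ∀ g, ∀ d ∈ χ.ker, g * d * g⁻¹ ∈ χ.ker := fun g d hd =>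
    χ.normal_ker.conj_mem d hd g
  by_cases hsc : ∀ d ∈ χ.ker, ∃ a : k, r d = a • (1 : Matrix (Fin 2) (Fin 2) k)
  · -- the projective image is commutative
    have hcomm : ∀ g h, ∃ a : k, r g * r h = a • (r h * r g) := fun g h => by
      obtain ⟨a, ha⟩ := hsc (g * h * g⁻¹ * h⁻¹) (by
        simp [MonoidHom.mem_ker, mul_comm (χ g) (χ h)])
      refine ⟨a, ?_⟩
      calc r g * r h = r (g * h * g⁻¹ * h⁻¹) * (r h * r g) := by
            simp only [← map_mul]; congr 1; group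
        _ = a • (r h * r g) := by rw [ha, smul_mul_assoc, one_mul]
    exact hr.no_adjoint_line hC0 hC fun g => by
      obtain ⟨a, ha⟩ := hcomm g c
      exact ⟨a, ha⟩
  push Not at hsc
  obtain ⟨d₀, hd₀, hns⟩ := hsc
  set Y₀ := r d₀ - ((r d₀).trace / 2) • (1 : Matrix (Fin 2) (Fin 2) k) with hY₀def
  have hY₀ : Y₀.trace = 0 := by
    rw [hY₀def, trace_sub, trace_smul, trace_one, Fintype.card_fin, smul_eq_mul]
    push_cast
    rw [div_mul_cancel₀ _ h2, sub_self]
  have hY00 : Y₀ ≠ 0 := fun h => hns _ (sub_eq_zero.mp h)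
  have hconj : ∀ g, r g * Y₀ * r g⁻¹ =
      r (g * d₀ * g⁻¹) - ((r d₀).trace / 2) • (1 : Matrix (Fin 2) (Fin 2) k) := fun g => by
    rw [hY₀def, mul_sub, sub_mul, mul_smul_comm, mul_one, smul_mul_assoc, mul_rinv, map_mul,
      map_mul]
  have horth : ∀ g, (r g * Y₀ * r g⁻¹ * C).trace = 0 := fun g => by
    rw [hconj, sub_mul, smul_mul_assoc, one_mul, trace_sub, trace_smul, hC, smul_zero, sub_zero,
      trace_mul_comm]
    exact hCD _ (hconjD g d₀ hd₀)
  by_cases hline : ∀ g, ∃ a : k, r g * Y₀ = a • (Y₀ * r g)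
  · exact hr.no_adjoint_line hY00 hY₀ hline
  push Not at hline
  obtain ⟨g₀, hg₀⟩ := hline
  set Y₁ := r g₀ * Y₀ * r g₀⁻¹ with hY₁def
  have hY₁ : Y₁.trace = 0 := by rw [hY₁def, CFT.TWPrimes.trace_conj, hY₀]
  have hind : ∀ a : k, Y₁ ≠ a • Y₀ := fun a h => hg₀ a (by
    calc r g₀ * Y₀ = Y₁ * r g₀ := by rw [hY₁def, mul_assoc, rinv_mul, mul_one]
      _ = a • (Y₀ * r g₀) := by rw [h, smul_mul_assoc])
  refine hr.no_adjoint_line hC0 hC fun g => ?_
  obtain ⟨a, ha⟩ := exists_eq_smul_of_trace_mul_eq_zero h2 (X := r g * C * r g⁻¹) hC0 hC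
    (by rw [CFT.TWPrimes.trace_conj, hC]) hY₀ hY₁ hY00 hind (by simpa using horth 1) (horth g₀)
    (by
      have h := horth g⁻¹
      rw [inv_inv] at h
      rw [← CFT.TWPrimes.trace_conj (r := r) g] at h
      simp only [mul_assoc] at h
      rw [← mul_assoc (r g) (r g⁻¹), mul_rinv, one_mul] at h
      simpa only [mul_assoc] using h)
    (by
      have h := horth (g⁻¹ * g₀)
      rw [← CFT.TWPrimes.trace_conj (r := r) g] at h
      simp only [_root_.mul_inv_rev, inv_inv, map_mul, mul_assoc] at h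
      rw [← mul_assoc (r g) (r g⁻¹), mul_rinv, one_mul] at h
      simpa only [hY₁def, mul_assoc] using h)
  refine ⟨a, ?_⟩
  calc r g * C = r g * C * r g⁻¹ * r g := by rw [mul_assoc, rinv_mul, mul_one]
    _ = a • (C * r g) := by rw [ha, smul_mul_assoc]

end Fermat.Agent.RT.Lift59.MazurQ

end
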